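import Fermat.Agent.PInX.Fin
import Fermat.Agent.RTM.Flds

/-!
# The fields `degp` and `newp` of the supply, from the pointwise facts at `p`
-/

set_option autoImplicit false
set_option linter.unusedSectionVars false

noncomputable section

namespace Fermat.Agent.PInX

open IsLocalRing Fermat.Agent.DefRing Fermat.Agent.RTan Fermat.Agent.LocRing
open Fermat.Agent.TWP (Pl Pl_lies Qb)
open Fermat.Agent.TW Fermat.Agent.TWDeg Fermat.Agent.RTM

section res

variable {p : ℕ} [hp : Fact p.Prime] {𝒪 : Type} [CommRing 𝒪] [IsLocalRing 𝒪] {χ : GQ → 𝒪}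
  {rbar : GQ →* M2 (ResidueField 𝒪)} (b : Bas p χ rbar)

/-- the residue of `b.z` -/
theorem z_res {T : Type} [CommRing T] [IsLocalRing T] [Algebra 𝒪 T]
    [IsLocalHom (algebraMap 𝒪 T)] {r : GQ →* M2 T} (hr : Red rbar r) {φ : GQ} {z₀ : 𝒪}
    (h : b.z r φ = algebraMap 𝒪 T z₀) : b.z rbar φ = residue 𝒪 z₀ := by
  obtain ⟨z₁, hz₁⟩ := residue_surjective (b.z rbar φ)
  have h1 := z_sub_mem b hr hz₁.symm
  rw [h, ← map_sub, ← residue_eq_zero_iff] at h1
  have h2 : ResidueField.map (algebraMap 𝒪 T) (residue 𝒪 (z₀ - z₁)) = 0 :=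
    (ResidueField.map_residue (algebraMap 𝒪 T) (z₀ - z₁)).trans h1
  have h3 := (map_eq_zero (ResidueField.map (algebraMap 𝒪 T))).mp h2
  rw [map_sub, sub_eq_zero] at h3
  rw [← hz₁, h3]

end res

variable {O : Type} [CommRing O] [IsDomain O] [IsDiscreteValuationRing O]
  [IsAdicComplete (maximalIdeal O) O] [Finite (ResidueField O)] [CharZero O]
  {rbar : GQ →* M2 (ResidueField O)} {sd : SliceData rbar} {p : ℕ} [hp : Fact p.Prime]
  {W : WeierstrassCurve ℤ} {χ : GQ → O} {m : ℕ} {G : Gal sd p W χ m} (A : Amb G) (E : A.Ex)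

include A in
theorem notMem_Q {N : ℕ} (h : Ok W p m N) (n : ℕ) : p ∉ (A.tw h n).Q := fun h1 => by
  obtain ⟨i, hi⟩ := A.mem_Q h n h1
  exact G.avoid n i (by rw [hi]; exact A.hpm)

include A in
theorem notMem_Q₀ {N : ℕ} (hN : N ∣ m) (n : ℕ) : p ∉ (A.tw₀ hN n).Q := fun h1 => by
  obtain ⟨i, hi⟩ := A.mem_Q₀ hN n h1
  exact G.avoid n i (by rw [hi]; exact A.hpm)

/-- **Degeneracy data at `p`** -/
theorem degZ (P : GalP G) (N : ℕ) (h : Ok W p m N) (h' : Ok W p m (N * p)) (n : ℕ)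
    (hU2 : HU2 p (m * G.Q n) ((A.tw h n).N * (A.tw h n).dd * (A.tw h n).dd)
      (AlgebraicClosure (FractionRing O)) (A.R' h n).φ (P.b.z (A.R' h n).C.r P.φ))
    (hU1 : HU1 p (m * G.Q n) ((A.tw h n).N * (A.tw h n).dd * (A.tw h n).dd)
      (AlgebraicClosure (FractionRing O)) (A.R' h' n).φ (P.b.z (A.R' h' n).C.r P.φ) P.z₀) :
    Nonempty (DegZ (A.L E n (N * p) h') (A.L E n N h) (RT8.FrobsOut (m * G.Q n)) P.b P.φ
      P.z₀) := by
  have := h.neZero
  have := h'.neZero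
  have hC : CharZero (AlgebraicClosure (FractionRing O)) :=
    charZero_of_injective_algebraMap (algebraMap (FractionRing O) _).injective
  obtain ⟨ϖ, hϖ⟩ := IsDiscreteValuationRing.exists_irreducible O
  exact ⟨mkDegZ (A.tw h n) (notMem_Q A h n) (A.hM h n) (A.hM h' n) (h'.not_dvd hp.out)
    (A.m'_ne n) A.hpO (AlgebraicClosure (FractionRing O)) TWLev.inj_E (PP W (m * G.Q n) O)
    (A.nonEis' h n) (A.nonEis' h' n) P.b A.hspan
    (realT A.hp2 A.hpO A.hspan (A.X E h n)) (realT A.hp2 A.hpO A.hspan (A.X E h' n)) hϖ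
    (upInj_curve W A.hΔ hp.out A.hp2 A.hirr (A.tw h n) hp.out (notMem_Q A h n) (A.m'_ne n)
      (A.hM h n) (A.hM h' n) (h'.not_dvd hp.out) A.hpO (PP W (m * G.Q n) O)
      (fun s => X_sub_C_mem_PP W _ O s) hϖ)
    (down_surj_curve W A.hΔ hp.out A.hp2 A.hirr (A.tw h n) hp.out (notMem_Q A h n) (A.m'_ne n)
      (A.hM h n) (A.hM h' n) (h'.not_dvd hp.out) A.hpO (PP W (m * G.Q n) O)
      (fun a ha => C_mem_PP W _ O ha) (fun s => X_sub_C_mem_PP W _ O s))
    A.hp2 P.sq (z_res P.b G.pt.red P.zpt) hU2 hU1⟩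

/-- **`p`-new levels** -/
theorem newp (P : GalP G) (N : ℕ) (h' : Ok W p m (N * p))
    (hres : ¬ W.IsResiduallyModularOfLevel p N) (n : ℕ) (hN : N ∣ m)
    (hU1 : HU1 p (m * G.Q n) ((A.tw₀ hN n).N * (A.tw₀ hN n).dd * (A.tw₀ hN n).dd)
      (AlgebraicClosure (FractionRing O)) (A.R' h' n).φ (P.b.z (A.R' h' n).C.r P.φ) P.z₀)
    (x : (A.L E n (N * p) h').M) :
    (P.b.z (A.L E n (N * p) h').C.r P.φ - algebraMap O _ P.z₀) • x = 0 := by
  have := h'.neZero
  have hC : CharZero (AlgebraicClosure (FractionRing O)) :=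
    charZero_of_injective_algebraMap (algebraMap (FractionRing O) _).injective
  have hM : (A.tw₀ hN n).M ∣ m * G.Q n := by
    rw [A.tw₀_M]
    exact mul_dvd_mul_right hN _
  have h23 : 2 ∣ N ∨ 5 ≤ p := by
    rcases h'.two with h2 | h2
    · left
      rcases Nat.prime_two.dvd_mul.mp h2 with h3 | h3
      · exact h3
      · exact absurd ((Nat.prime_dvd_prime_iff_eq Nat.prime_two hp.out).mp h3).symm A.hp2
    · exact Or.inr h2
  have hsub : Subsingleton (MQ (A.tw₀ hN n) hM (PP W (m * G.Q n) O) O) :=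
    RT8X.subsingleton_MQ_of_not_res W A.hΔ A.hp2 A.hirr A.hpO sd A.hspan G.rd.cont (A.m'_ne n)
      (dvd_mul_right m (G.Q n)) A.hpm (A.tr dvd_rfl) (A.tw₀ hN n) hM hN h23
      (fun q hq => by
        obtain ⟨i, rfl⟩ := A.mem_Q₀ hN n hq
        exact G.avoid n i)
      (fun q hq => by
        obtain ⟨i, rfl⟩ := A.mem_Q₀ hN n hq
        exact Amb.hfr_of n i)
      (isPGroup_delta p n G.g N A.hp2 _ (G.q n) (Amb.dvdQ n) (Amb.ndvd_of hN n)) hres
  exact new_p (A.tw₀ hN n) (notMem_Q₀ A hN n) hM (A.hM h' n) (h'.not_dvd hp.out)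
    (AlgebraicClosure (FractionRing O)) TWLev.inj_E (PP W (m * G.Q n) O) (A.nonEis' h' n) P.b
    (realT A.hp2 A.hpO A.hspan (A.X E h' n)) hU1 hsub x

end Fermat.Agent.PInX

end
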