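import Fermat.Agent.PInX.TPZ

/-!
# The kernel of the trace maps at `p`

If `f(z) = z₀` at all points `f` of the Hecke algebra which are new at `p`, then `z - z₀` kills the kernel
of the trace maps from level `N p` to level `N`.
-/

set_option autoImplicit false
set_option linter.unusedSectionVars false

noncomputable section

namespace Fermat.Agent.PInX

open Fermat.Agent.TW Fermat.Agent.TWDeg HeckeHom ModularCurve.Period CongruenceSubgroup
open scoped MatrixGroups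

/-- [U1] at all points of `T`: if the multiplicity of the eigensystem of the point `f` in level `n p`
is greater than twice its multiplicity in level `n`, then `f(z) = z₀`. -/
def HU1 (p m n : ℕ) {O T : Type} [CommRing O] [CommRing T] [Algebra O T] (E : Type) [Field E]
    [Algebra O E] (φ : TPoly m O →ₐ[O] T) (z : T) (z₀ : O) : Prop :=
  ∀ (f : T →ₐ[O] E) (a : ℕ → E),
    (∀ (s : ℕ) (hs : s.Prime) (hsm : ¬ s ∣ m), a s = f (φ (MvPolynomial.X ⟨s, hs, hsm⟩))) →
    2 * Module.finrank E (eigSp E m n a) < Module.finrank E (eigSp E m (n * p) a) →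
    f z = algebraMap O E z₀

section Main

variable {D : Type} [CommGroup D] [Fintype D] (W : TWD D) {p : ℕ} (hp : p.Prime) (hpQ : p ∉ W.Q)
  {m : ℕ} (hM : W.M ∣ m) (hM' : (raise W hp hpQ).M ∣ m) (hpN : ¬ p ∣ W.N)
  {O : Type} [CommRing O] [IsDomain O] [CharZero O] (𝔪 : Ideal (TPoly m O)) [𝔪.IsPrime]
  (E : Type) [Field E] [Algebra O E] [CharZero E] [IsAlgClosed E]
  (hOE : Function.Injective (algebraMap O E))
  {T : Type} [CommRing T] [Algebra O T] (φ : TPoly m O →ₐ[O] T) (hφ : Function.Surjective φ)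
  (hker : ∀ P, φ P = 0 → ∀ x : Loc 𝔪 ((XF hM').H (funRep (M := (raise W hp hpQ).M) O O
    (raise W hp hpQ).YQ)), P • x = 0)

/-- the kernel of the trace maps over `E` -/
def kerE : Submodule (TPoly m O)
    ((XF hM').H (funRep (M := (raise W hp hpQ).M) O E (raise W hp hpQ).YQ)) :=
  LinearMap.ker (degTW W hp hpQ O E (fun _ => .chi) hM hM' hpN).down

theorem mem_kerE (x : (XF hM').H (funRep (M := (raise W hp hpQ).M) O E (raise W hp hpQ).YQ)) :
    x ∈ kerE W hp hpQ hM hM' hpN (O := O) E ↔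
      (degTW W hp hpQ O E (fun _ => .chi) hM hM' hpN).down x = 0 := LinearMap.mem_ker

theorem kerE_eAct (e : E) :
    ∀ x ∈ kerE W hp hpQ hM hM' hpN (O := O) E, eAct (XF hM') e x ∈
      kerE W hp hpQ hM hM' hpN (O := O) E := by
  intro x hx
  rw [mem_kerE] at hx ⊢
  have h1 := (degTW_coef W hp hpQ hM hM' hpN (fun _ => .chi)
    (LinearMap.mulLeft O e : E →ₗ[O] E)).down x
  refine h1.trans ?_
  rw [hx, Prod.fst_zero, Prod.snd_zero, map_zero]
  rfl

theorem hnm_raise : ∀ q : ℕ, q.Prime →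
    q ∣ (raise W hp hpQ).N * (raise W hp hpQ).dd * (raise W hp hpQ).dd → q ∣ (raise W hp hpQ).M :=
  hnm_self (raise W hp hpQ)

include hOE hφ hker in
/-- **The kernel of the trace maps at `p`.** -/
theorem kdp (hne : NonEis (raise W hp hpQ).M 𝔪) (Z : TPoly m O) (z₀ : O)
    (hU1 : HU1 p m (W.N * W.dd * W.dd) E φ (φ Z) z₀)
    (x : Loc 𝔪 ((XF hM').H (funRep (M := (raise W hp hpQ).M) O O (raise W hp hpQ).YQ)))
    (hx : ((degTW W hp hpQ O O (fun _ => .chi) hM hM' hpN).loc 𝔪).down x = 0) :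
    Z • x = z₀ • x := by
  have hn1 : NeZero (W.N * W.dd * W.dd) := ⟨n_ne_zero W⟩
  have hn2 : NeZero ((raise W hp hpQ).N * (raise W hp hpQ).dd * (raise W hp hpQ).dd) :=
    ⟨n_ne_zero (raise W hp hpQ)⟩
  have hES : ES (W.N * W.dd * W.dd) := Tate.es _
  have hES' : ES ((raise W hp hpQ).N * (raise W hp hpQ).dd * (raise W hp hpQ).dd) := Tate.es _
  have hnm : ∀ q : ℕ, q.Prime →
      q ∣ (raise W hp hpQ).N * (raise W hp hpQ).dd * (raise W hp hpQ).dd → q ∣ m :=
    fun q hq h => (hnm_raise W hp hpQ q hq h).trans hM'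
  obtain ⟨l₀, hl₀, hl₀𝔪⟩ := hne
  let S : Submonoid (TPoly m O) := 𝔪.primeCompl
  have hl₀S : eis O l₀ ∈ S := hl₀𝔪
  have hrel : RelE hM' (n := (raise W hp hpQ).N * (raise W hp hpQ).dd * (raise W hp hpQ).dd) hnm
      O E (raise W hp hpQ).YQ :=
    ⟨(raise W hp hpQ).Q.card + 1, fun l hl p hp x => rel_YQ_E (raise W _ _) hM' hnm hES' l hl p hp x⟩
  let D₀ := degTW W hp hpQ O O (fun _ => .chi) hM hM' hpN
  let DE := degTW W hp hpQ O E (fun _ => .chi) hM hM' hpN
  -- reduction to an element of the kernel before localisation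
  obtain ⟨s, hs, y, hy⟩ := Loc.exists_smul x
  have h1 : (D₀.loc 𝔪).down (Loc.mk 𝔪 _ y) = 0 := by
    rw [← hy, map_smul, hx, smul_zero]
  have h2 : Loc.mk 𝔪 _ (D₀.down y).1 = 0 ∧ Loc.mk 𝔪 _ (D₀.down y).2 = 0 := by
    have e1 : (D₀.loc 𝔪).down (Loc.mk 𝔪 _ y) =
        (Loc.mk 𝔪 _ (D₀.down y).1, Loc.mk 𝔪 _ (D₀.down y).2) := by
      refine Prod.ext ?_ ?_
      · change Loc.map 𝔪 D₀.J (Loc.mk 𝔪 _ y) = _
        rw [Loc.map_mk]
        rfl
      · change Loc.map 𝔪 D₀.J (Loc.map 𝔪 D₀.W (Loc.mk 𝔪 _ y)) = _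
        rw [Loc.map_mk, Loc.map_mk]
        rfl
    rw [h1] at e1
    exact ⟨(congrArg Prod.fst e1).symm, (congrArg Prod.snd e1).symm⟩
  obtain ⟨t₁, ht₁, h3⟩ := Loc.mk_eq_zero.mp h2.1
  obtain ⟨t₂, ht₂, h4⟩ := Loc.mk_eq_zero.mp h2.2
  have ht : t₁ * t₂ ∉ 𝔪 := fun h => ((inferInstance : 𝔪.IsPrime).mem_or_mem h).elim ht₁ ht₂
  let h : (XF hM').H (funRep (M := (raise W hp hpQ).M) O O (raise W hp hpQ).YQ) := (t₁ * t₂) • y
  have hh0 : D₀.down h = 0 := by
    change D₀.down ((t₁ * t₂) • y) = 0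
    rw [map_smul]
    refine Prod.ext ?_ ?_
    · change (t₁ * t₂) • (D₀.down y).1 = 0
      rw [mul_comm, mul_smul, h3, smul_zero]
    · change (t₁ * t₂) • (D₀.down y).2 = 0
      rw [mul_smul, h4, smul_zero]
  have hhE : ext O E (raise W hp hpQ).YQ hM' h ∈ kerE W hp hpQ hM hM' hpN (O := O) E := by
    rw [mem_kerE]
    have e1 := (degTW_coef W hp hpQ hM hM' hpN (fun _ => .chi) (Algebra.linearMap O E)).down h
    refine e1.trans ?_
    rw [hh0, Prod.fst_zero, Prod.snd_zero, map_zero]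
    rfl
  -- the points principle
  have key : (Z - MvPolynomial.C z₀) • h ∈
      torS S ((XF hM').H (funRep (M := (raise W hp hpQ).M) O O (raise W hp hpQ).YQ)) := by
    by_contra hcon
    obtain ⟨v, hvK, χ, hv, hχb, hS, hint, htor⟩ := exists_isEig (Y := (raise W hp hpQ).YQ) hrel hOE S
      l₀ hl₀ hl₀S (kerE W hp hpQ hM hM' hpN (O := O) E) (kerE_eAct W hp hpQ hM hM' hpN E) h hhE
      (Z - MvPolynomial.C z₀) hcon
    apply hχb
    have hχeis : χ (eis O l₀) ≠ 0 := hS _ hl₀S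
    obtain ⟨f, hf⟩ := exists_algLift φ hφ χ (fun P hP => by
      refine htor _ ?_
      have e1 := hker P hP (Loc.mk 𝔪 _ h)
      rw [← map_smul, Loc.mk_eq_zero] at e1
      obtain ⟨s, hs, e1⟩ := e1
      exact ⟨s, hs, e1⟩)
    have hl₁ : ((l₀ : ℕ) : ZMod (one W).M) = 1 := by
      have e1 : (one W).M ∣ (raise W hp hpQ).M := (one_M_dvd W).trans ⟨p, raise_M W hp hpQ⟩
      have e2 := congrArg (ZMod.castHom e1 (ZMod (one W).M)) hl₀
      rwa [map_natCast, map_one] at e2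
    obtain ⟨v', hv', hd'⟩ := exists_tor W hp hpQ hM hM' hpN l₀ hl₁ hχeis v hv
      ((mem_kerE W hp hpQ hM hM' hpN E v).mp hvK)
    have hdim := dim_lt W hp hpQ hM hM' hpN hES χ hl₀ hχeis hnm v' hv' hd'
    have e2 : W.N * p * W.dd * W.dd = W.N * W.dd * W.dd * p := by ring
    rw [e2] at hdim
    have e3 := hU1 f (avec χ) (fun s hs hsm => by
      rw [hf]
      exact avec_coe χ ⟨s, hs, hsm⟩) hdim
    rw [hf] at e3
    rw [map_sub, e3, sub_eq_zero]
    exact (χ.commutes z₀).symm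
  obtain ⟨s', hs', h5⟩ := key
  rw [← sub_eq_zero, ← Loc.C_smul, ← sub_smul]
  have h6 : (s' * (t₁ * t₂) * s) • (Z - MvPolynomial.C z₀) • x = 0 := by
    have e1 : (s' * (t₁ * t₂) * s) • (Z - MvPolynomial.C z₀) • x =
        s' • (Z - MvPolynomial.C z₀) • (t₁ * t₂) • s • x := by
      rw [← mul_smul, ← mul_smul, ← mul_smul, ← mul_smul]
      congr 1
      ring
    rw [e1, hy, ← map_smul, ← map_smul, ← map_smul]
    change Loc.mk 𝔪 _ (s' • (Z - MvPolynomial.C z₀) • h) = 0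
    rw [h5, map_zero]
  refine Loc.eq_zero_of_smul (fun h7 => ?_) h6
  rcases (inferInstance : 𝔪.IsPrime).mem_or_mem h7 with h7 | h7
  · rcases (inferInstance : 𝔪.IsPrime).mem_or_mem h7 with h7 | h7
    · exact hs' h7
    · exact ht h7
  · exact hs h7

include hpN hOE hφ hker in
/-- if there is nothing of level `N`, then `z = z₀` on the module of level `N p`. -/
theorem kdp_of_subsingleton (hne : NonEis (raise W hp hpQ).M 𝔪) (Z : TPoly m O) (z₀ : O)
    (hU1 : HU1 p m (W.N * W.dd * W.dd) E φ (φ Z) z₀)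
    [Subsingleton (Loc 𝔪 ((XF hM).H (funRep (M := W.M) O O W.YQ)))]
    (x : Loc 𝔪 ((XF hM').H (funRep (M := (raise W hp hpQ).M) O O (raise W hp hpQ).YQ))) :
    Z • x = z₀ • x :=
  kdp W hp hpQ hM hM' hpN 𝔪 E hOE φ hφ hker hne Z z₀ hU1 x (Subsingleton.elim _ _)

end Main

end Fermat.Agent.PInX

end
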