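import Fermat.Agent.RTM.LevP
import Fermat.Agent.OrdNew.U1
import Fermat.Agent.OrdOld.U2
import Fermat.Agent.PInX.KDP

/-!
# [U1] and [U2] at the points of the Hecke algebras of Hecke modules
-/

set_option autoImplicit false
set_option linter.unusedSectionVars false

noncomputable section

namespace Fermat.Agent.PInX

open Fermat.Agent.TW Fermat.Agent.TWDeg HeckeHom ModularCurve.Period CongruenceSubgroup
open Fermat.Agent.RTan Fermat.Agent.RTM IsLocalRing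
open Fermat.Agent.TWP (Pl)
open Fermat.Agent.DefRing (MatCont Red Norm SliceData M2 GQ mapRep)
open scoped MatrixGroups

variable {O : Type} [CommRing O] [IsDomain O] [IsDiscreteValuationRing O]
  [IsAdicComplete (maximalIdeal O) O] [Finite (ResidueField O)] [CharZero O]
  {rbar : GQ →* M2 (ResidueField O)} {sd : SliceData rbar} {p n m : ℕ} [hp : Fact p.Prime]
  [NeZero n] {M : Type} [AddCommGroup M] [Module (TPoly m O) M] [Module O M]
  (R : HRep (m := m) p n sd M)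
  (hp2 : p ≠ 2) (hpO : (p : O) ∈ maximalIdeal O) (hm : m ≠ 0)
  (hpm : p ∣ m) (hnm : ∀ q : ℕ, q.Prime → q ∣ n → q ∣ m)
  (hspan : Submodule.span (ResidueField O) (Set.range rbar) = ⊤) {χ : GQ → O} (b : Bas p χ rbar)

include hp2 hpO hm hpm hnm hspan in
/-- [U1] for the Hecke algebras of Hecke modules -/
theorem hu1_hrep {Φ : GQ} (hΦ : (Pl (ExtCitation.pPrime p)).IsFrobeniusAt Φ p) {z₀ : O}
    (hz₀ : z₀ ^ 2 = 1) (hres : b.z rbar Φ = residue O z₀) {n' : ℕ} [NeZero n'] (hpn' : ¬ p ∣ n')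
    (hn'm : ∀ q : ℕ, q.Prime → q ∣ n' → q ∣ m) :
    HU1 p m n' (EE O) R.φ (b.z R.C.r Φ) z₀ := by
  intro f a ha hdim
  refine (IsLev.of_hrep R hm hnm).z_new hp2 hpO hm hpm hnm hspan b OrdNew.u1 hΦ hz₀ hres hpn' hn'm
    f (a := a) (fun s hs hsm B hB τ hτ => ?_) hdim
  rw [ha s hs hsm, (R.tr ⟨s, hs, hsm⟩ B hB τ hτ).1]

include hp2 hpO hm hpm hnm hspan in
/-- [U2] for the Hecke algebras of Hecke modules -/
theorem hu2_hrep (hχ : CycChar p χ) (hord : OrdAt p χ rbar) {Φ : GQ}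
    (hΦ : (Pl (ExtCitation.pPrime p)).IsFrobeniusAt Φ p) {n' : ℕ} [NeZero n'] (hpn' : ¬ p ∣ n')
    (hn'm : ∀ q : ℕ, q.Prime → q ∣ n' → q ∣ m) :
    HU2 p m n' (EE O) R.φ (b.z R.C.r Φ) := by
  classical
  intro f _ _ c ψ hψ hψ0 heig hc
  let a : ℕ → EE O := fun s => if h : s.Prime ∧ ¬ s ∣ m then
    f (R.φ (MvPolynomial.X ⟨s, h.1, h.2⟩)) else 0
  have ha : ∀ (s : ℕ) (hs : s.Prime) (hsm : ¬ s ∣ m),
      a s = f (R.φ (MvPolynomial.X ⟨s, hs, hsm⟩)) := fun s hs hsm => dif_pos ⟨hs, hsm⟩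
  refine (IsLev.of_hrep R hm hnm).z_old hp2 hpO hm hpm hnm hχ hspan b hord OrdOld.u2 hΦ hpn' hn'm
    f (a := a) (fun s hs hsm B hB τ hτ => ?_) (ψ := ψ) ⟨hψ, fun s hs hsn hsm => ?_⟩ hψ0 hc
  · rw [ha s hs hsm, (R.tr ⟨s, hs, hsm⟩ B hB τ hτ).1]
  · rw [ha s hs hsm]
    exact heig s hs hsn hsm

end Fermat.Agent.PInX

end
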