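import Mathlib.Algebra.Polynomial.Div
import Mathlib.Tactic
import Mathlib.RingTheory.IntegralClosure.IsIntegralClosure.Basic
import Mathlib.RingTheory.LocalRing.MaximalIdeal.Basic
import Mathlib.RingTheory.DiscreteValuationRing.Basic

/-!
# The cokernel of the degeneracy map at `p`: algebra
-/

set_option autoImplicit false
set_option linter.unusedSectionVars false
set_option linter.overlappingInstances false

namespace Fermat.Agent.PInX

open IsLocalRing

/-- An integral element `b` of a reduced algebra is von Neumann regular up to torsion. -/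
theorem exists_regular {O T : Type*} [CommRing O] [Nontrivial O] [CommRing T] [Algebra O T]
    [IsReduced T] (b : T) (hb : IsIntegral O b) :
    ∃ (o : O) (e : T), o ≠ 0 ∧ algebraMap O T o * b = b ^ 2 * e := by
  obtain ⟨P, hP, hPb⟩ := hb
  have hP0 : P ≠ 0 := hP.ne_zero
  -- remove the powers of `X`
  have hex : ∃ n : ℕ, ∃ Q : Polynomial O, P = Polynomial.X ^ n * Q ∧ Q.coeff 0 ≠ 0 := by
    refine ⟨P.rootMultiplicity 0, P /ₘ (Polynomial.X - Polynomial.C 0) ^ P.rootMultiplicity 0,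
      ?_, ?_⟩
    · have h1 := Polynomial.pow_mul_divByMonic_rootMultiplicity_eq P 0
      rw [Polynomial.C_0, sub_zero] at h1 ⊢
      exact h1.symm
    · have h2 := Polynomial.eval_divByMonic_pow_rootMultiplicity_ne_zero (0 : O) hP0
      rwa [← Polynomial.coeff_zero_eq_eval_zero] at h2
  obtain ⟨n, Q, hPQ, hQ⟩ := hex
  rw [hPQ, Polynomial.eval₂_mul, Polynomial.eval₂_pow, Polynomial.eval₂_X] at hPb
  have h3 : b * Polynomial.eval₂ (algebraMap O T) b Q = 0 := by
    apply IsReduced.eq_zero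
    refine ⟨n + 1, ?_⟩
    rw [mul_pow, pow_succ b, pow_succ (Polynomial.eval₂ (algebraMap O T) b Q)]
    calc b ^ n * b * (Polynomial.eval₂ (algebraMap O T) b Q ^ n *
        Polynomial.eval₂ (algebraMap O T) b Q) = (b ^ n * Polynomial.eval₂ (algebraMap O T) b Q) *
          (b * Polynomial.eval₂ (algebraMap O T) b Q ^ n) := by ring
      _ = 0 := by rw [hPb, zero_mul]
  refine ⟨Q.coeff 0, - Polynomial.eval₂ (algebraMap O T) b Q.divX, hQ, ?_⟩
  have h4 : Polynomial.eval₂ (algebraMap O T) b Q =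
      Polynomial.eval₂ (algebraMap O T) b Q.divX * b + algebraMap O T (Q.coeff 0) := by
    conv_lhs => rw [← Polynomial.divX_mul_X_add Q]
    rw [Polynomial.eval₂_add, Polynomial.eval₂_mul, Polynomial.eval₂_X, Polynomial.eval₂_C]
  rw [h4] at h3
  linear_combination h3

section

variable {B N₁ N₂ : Type*} [CommRing B] [AddCommGroup N₁] [Module B N₁]
    [AddCommGroup N₂] [Module B N₂] (up : N₁ × N₁ →ₗ[B] N₂) (down : N₂ →ₗ[B] N₁ × N₁) (p : ℕ)

/-- `(z - z₀)²` maps into the range of `up`. -/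
theorem sq_mem_range {z zi z₀ u : B} (hz₀ : z₀ ^ 2 = 1)
    (h₂ : ∀ x : N₂, (z * zi) • x = x)
    (hdu : ∀ a b : N₁, down (up (a, b)) = (((p : B) + 1) • a + (z + (p : B) * zi) • b,
      (z + (p : B) * zi) • a + ((p : B) + 1) • b))
    (hK : ∀ x : N₂, down x = 0 → (z - z₀) • x = 0)
    (hu : ∀ x : N₂, (u * ((z + z₀) * (z ^ 2 - (p : B) ^ 2))) • x = x) (x : N₂) :
    ∃ y, (z - z₀) ^ 2 • x = up y := by
  obtain ⟨p, hp⟩ : ∃ p' : B, p' = (p : B) := ⟨_, rfl⟩
  rw [← hp] at hu hdu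
  obtain ⟨y, hy⟩ : ∃ y, down x = y := ⟨_, rfl⟩
  set w : N₁ × N₁ := ((p + 1) • y.1 - (z + p * zi) • y.2, (p + 1) • y.2 - (z + p * zi) • y.1)
    with hw
  set d : B := (p + 1) ^ 2 - (z + p * zi) ^ 2 with hd
  have h3 : down (up w) = d • y := by
    have e : w = (w.1, w.2) := rfl
    rw [e, hdu]
    refine Prod.ext ?_ ?_
    · change (p + 1) • ((p + 1) • y.1 - (z + p * zi) • y.2) +
        (z + p * zi) • ((p + 1) • y.2 - (z + p * zi) • y.1) = d • y.1
      rw [hd]
      module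
    · change (z + p * zi) • ((p + 1) • y.1 - (z + p * zi) • y.2) +
        (p + 1) • ((p + 1) • y.2 - (z + p * zi) • y.1) = d • y.2
      rw [hd]
      module
  have h4 : down (d • x - up w) = 0 := by rw [map_sub, map_smul, hy, h3, sub_self]
  have h5 := hK _ h4
  rw [smul_sub, sub_eq_zero, ← map_smul, smul_smul] at h5
  -- multiply by `z²`
  have h6 : ∀ x : N₂, ((z - z₀) * (z ^ 2 * d)) • x =
      (-((z - z₀) ^ 2 * ((z + z₀) * (z ^ 2 - p ^ 2)))) • x := by
    intro x
    have e1 : (z - z₀) * (z ^ 2 * d) =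
        -((z - z₀) ^ 2 * ((z + z₀) * (z ^ 2 - p ^ 2))) +
          ((z - z₀) * (z ^ 2 - p ^ 2) * (1 - z₀ ^ 2) +
            (-(z - z₀) * (2 * p * z ^ 2 + p ^ 2 * (z * zi + 1))) * (z * zi - 1)) := by
      rw [hd]
      ring
    have e2 : (z * zi - 1) • x = 0 := by rw [sub_smul, h₂, one_smul, sub_self]
    rw [e1, hz₀, sub_self, mul_zero, zero_add, add_smul, mul_smul _ (z * zi - 1) x, e2,
      smul_zero, add_zero]
  refine ⟨(-(u * z ^ 2) * (z - z₀)) • w, ?_⟩
  have h7 : up ((-(u * z ^ 2) * (z - z₀)) • w) =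
      (-u) • (((z - z₀) * (z ^ 2 * d)) • x) := by
    rw [map_smul]
    have e2 : (-(u * z ^ 2) * (z - z₀)) • up w = (-(u * z ^ 2)) • (up ((z - z₀) • w)) := by
      rw [map_smul, smul_smul]
    rw [e2, ← h5, smul_smul, smul_smul]
    congr 1
    ring
  rw [h7, h6, smul_smul]
  have e3 : -u * -((z - z₀) ^ 2 * ((z + z₀) * (z ^ 2 - p ^ 2))) =
      (z - z₀) ^ 2 * (u * ((z + z₀) * (z ^ 2 - p ^ 2))) := by ring
  rw [e3, mul_smul, hu]

/-- **The cokernel of `up` is killed by `z - z₀`.** -/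
theorem mem_range {z zi z₀ u a e : B} (hz₀ : z₀ ^ 2 = 1)
    (h₂ : ∀ x : N₂, (z * zi) • x = x)
    (hdu : ∀ a b : N₁, down (up (a, b)) = (((p : B) + 1) • a + (z + (p : B) * zi) • b,
      (z + (p : B) * zi) • a + ((p : B) + 1) • b))
    (hK : ∀ x : N₂, down x = 0 → (z - z₀) • x = 0)
    (hu : ∀ x : N₂, (u * ((z + z₀) * (z ^ 2 - (p : B) ^ 2))) • x = x)
    (ha : ∀ x : N₂, (a * (z - z₀)) • x = ((z - z₀) ^ 2 * e) • x)
    (hsat : ∀ x : N₂, (∃ y, a • x = up y) → ∃ y, x = up y) (x : N₂) :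
    ∃ y, (z - z₀) • x = up y := by
  apply hsat
  rw [smul_smul, ha, mul_smul]
  exact sq_mem_range up down p hz₀ h₂ hdu hK hu _

end

theorem isUnit_two_of_odd {O : Type*} [CommRing O] [IsLocalRing O] {p : ℕ} (hodd : Odd p)
    (hpO : (p : O) ∈ maximalIdeal O) : IsUnit (2 : O) := by
  by_contra hcon
  have h2 : (2 : O) ∈ maximalIdeal O := (mem_maximalIdeal _).mpr hcon
  obtain ⟨k, hk⟩ := hodd
  have h1 : (1 : O) ∈ maximalIdeal O := by
    have e : (1 : O) = (p : O) - 2 * (k : O) := by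
      rw [hk]
      push_cast
      ring
    rw [e]
    exact sub_mem hpO (Ideal.mul_mem_right _ _ h2)
  exact (Ideal.ne_top_iff_one _).mp (maximalIdeal.isMaximal O).ne_top h1

section

variable {O : Type*} [CommRing O] [IsLocalRing O]
  {B N₁ N₂ : Type*} [CommRing B] [Algebra O B] [AddCommGroup N₁] [Module B N₁]
    [AddCommGroup N₂] [Module B N₂] (up : N₁ × N₁ →ₗ[B] N₂) (down : N₂ →ₗ[B] N₁ × N₁) (p : ℕ)

/-- The version with Hecke algebras: `T` is the Hecke algebra of `N₂`, in which `z` is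
congruent to `z₀`. -/
theorem mem_range_hecke {T : Type*} [CommRing T] [IsLocalRing T] [Algebra O T] [IsReduced T]
    [Algebra.IsIntegral O T] (φ : B →ₐ[O] T)
    (hker : ∀ b, φ b = 0 → ∀ x : N₂, b • x = 0) (hodd : Odd p)
    (hpO : (p : O) ∈ maximalIdeal O) (hpT : (p : T) ∈ maximalIdeal T)
    (z₀ : O) (hz₀ : z₀ ^ 2 = 1) {z zi : B}
    (hφ : ∀ t : T, ∃ b, φ b = t) (h₂ : ∀ x : N₂, (z * zi) • x = x)
    (hzT : φ z - algebraMap O T z₀ ∈ maximalIdeal T)
    (hdu : ∀ a b : N₁, down (up (a, b)) = (((p : B) + 1) • a + (z + (p : B) * zi) • b,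
      (z + (p : B) * zi) • a + ((p : B) + 1) • b))
    (hK : ∀ x : N₂, down x = 0 → (z - algebraMap O B z₀) • x = 0)
    (hsat : ∀ (o : O) (x : N₂), o ≠ 0 → (∃ y, algebraMap O B o • x = up y) →
      ∃ y, x = up y) (x : N₂) :
    ∃ y, (z - algebraMap O B z₀) • x = up y := by
  have h2 : IsUnit (2 : O) := isUnit_two_of_odd hodd hpO
  have hz₀u : IsUnit z₀ := IsUnit.of_pow_eq_one hz₀ two_ne_zero
  have hu1 : IsUnit (φ z + algebraMap O T z₀) := by
    have e : φ z + algebraMap O T z₀ = 2 * algebraMap O T z₀ + (φ z - algebraMap O T z₀) := by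
      ring
    have h3 : IsUnit (2 * algebraMap O T z₀) := by
      have h4 := (h2.mul hz₀u).map (algebraMap O T)
      rwa [map_mul, map_ofNat] at h4
    rw [e]
    by_contra hcon
    have h5 := sub_mem ((mem_maximalIdeal _).mpr hcon) hzT
    rw [add_sub_cancel_right] at h5
    exact (mem_maximalIdeal _).mp h5 h3
  have hu2 : IsUnit (φ z ^ 2 - (p : T) ^ 2) := by
    by_contra hcon
    have h6 : φ z ^ 2 - 1 ∈ maximalIdeal T := by
      have e : φ z ^ 2 - 1 = (φ z - algebraMap O T z₀) * (φ z + algebraMap O T z₀) := by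
        have h7 : (algebraMap O T z₀) ^ 2 = 1 := by rw [← map_pow, hz₀, map_one]
        linear_combination h7
      rw [e]
      exact Ideal.mul_mem_right _ _ hzT
    have h8 : (1 : T) ∈ maximalIdeal T := by
      have e : (1 : T) = (φ z ^ 2 - (p : T) ^ 2) - (φ z ^ 2 - 1) + (p : T) * (p : T) := by
        ring
      rw [e]
      exact add_mem (sub_mem ((mem_maximalIdeal _).mpr hcon) h6) (Ideal.mul_mem_left _ _ hpT)
    exact (Ideal.ne_top_iff_one _).mp (maximalIdeal.isMaximal T).ne_top h8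
  obtain ⟨v, hv⟩ := (hu1.mul hu2).exists_left_inv
  obtain ⟨u, rfl⟩ := hφ v
  obtain ⟨o, e', ho, he⟩ := exists_regular (O := O) (φ z - algebraMap O T z₀)
    (Algebra.IsIntegral.isIntegral _)
  obtain ⟨e, rfl⟩ := hφ e'
  have key : ∀ b c : B, φ b = φ c → ∀ x : N₂, b • x = c • x := by
    intro b c hbc x
    rw [← sub_eq_zero, ← sub_smul]
    exact hker _ (by rw [map_sub, hbc, sub_self]) x
  refine mem_range up down p (z := z) (zi := zi) (z₀ := algebraMap O B z₀) (u := u)
    (a := algebraMap O B o) (e := e) (by rw [← map_pow, hz₀, map_one]) h₂ hdu hK ?_ ?_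
    (fun x => hsat o x ho) x
  · intro x
    refine (key _ 1 ?_ x).trans (one_smul _ _)
    rw [map_mul, map_mul, map_add, map_sub, map_pow, map_pow, map_natCast, AlgHom.commutes,
      map_one]
    exact hv
  · refine key _ _ ?_
    rw [map_mul, map_mul, map_pow, map_sub, AlgHom.commutes, AlgHom.commutes]
    exact he

/-- saturation of the range from injectivity modulo a uniformiser -/
theorem sat_of_upInj {O : Type*} [CommRing O] [IsDomain O] [IsDiscreteValuationRing O]
    [Algebra O B] {π : O} (hπ : Irreducible π)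
    (htf : ∀ x : N₂, algebraMap O B π • x = 0 → x = 0)
    (h : ∀ (y : N₁ × N₁) (z : N₂), up y = algebraMap O B π • z → ∃ y', y = algebraMap O B π • y')
    (o : O) (x : N₂) (ho : o ≠ 0) (hx : ∃ y, algebraMap O B o • x = up y) :
    ∃ y, x = up y := by
  obtain ⟨n, u, hu⟩ := IsDiscreteValuationRing.eq_unit_mul_pow_irreducible ho hπ
  -- the case of a power of the uniformiser
  have key : ∀ (n : ℕ) (x : N₂), (∃ y, algebraMap O B (π ^ n) • x = up y) → ∃ y, x = up y := by
    intro n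
    induction n with
    | zero =>
      rintro x ⟨y, hy⟩
      exact ⟨y, by rw [← hy, pow_zero, map_one, one_smul]⟩
    | succ n ih =>
      rintro x ⟨y, hy⟩
      apply ih
      rw [pow_succ', map_mul, mul_smul] at hy
      obtain ⟨y', rfl⟩ := h y _ hy.symm
      refine ⟨y', ?_⟩
      rw [← sub_eq_zero]
      apply htf
      rw [smul_sub, hy, map_smul, sub_self]
  obtain ⟨y, hy⟩ := hx
  refine key n x ⟨algebraMap O B ((u⁻¹ : Oˣ) : O) • y, ?_⟩
  rw [map_smul, ← hy, smul_smul, ← map_mul, hu, ← mul_assoc, Units.inv_mul, one_mul]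

end

end Fermat.Agent.PInX
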