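import Fermat.Agent.PInX.Alg
import Fermat.Agent.PInX.KDP
import Fermat.Agent.TWDeg.DegLev
import Fermat.Agent.RTM.Supply

/-!
# Degeneracy maps at `p` in the ordinary case
-/

set_option autoImplicit false
set_option linter.unusedSectionVars false
set_option linter.unusedVariables false

noncomputable section

namespace Fermat.Agent.PInX

open Fermat.Agent.TW HeckeHom ModularCurve.Period CongruenceSubgroup IsLocalRing
  Fermat.Agent.DefRing Module Fermat.Agent.RT8 Fermat.Agent.TWDeg Fermat.Agent.RTan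
  Fermat.Agent.RTM
open scoped MatrixGroups

section res

variable {p : ℕ} [hp : Fact p.Prime] {𝒪 : Type} [CommRing 𝒪] [IsLocalRing 𝒪] {χ : GQ → 𝒪}
  {rbar : GQ →* M2 (ResidueField 𝒪)} (b : Bas p χ rbar)

/-- the residue of `b.z` -/
theorem z_sub_mem {T : Type} [CommRing T] [IsLocalRing T] [Algebra 𝒪 T]
    [IsLocalHom (algebraMap 𝒪 T)] {r : GQ →* M2 T} (hr : Red rbar r) {φ : GQ} {z₀ : 𝒪}
    (h : b.z rbar φ = residue 𝒪 z₀) : b.z r φ - algebraMap 𝒪 T z₀ ∈ maximalIdeal T := by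
  let f : T →ₐ[𝒪] ResidueField T := IsScalarTower.toAlgHom 𝒪 T (ResidueField T)
  let f' : ResidueField 𝒪 →ₐ[𝒪] ResidueField T :=
    { ResidueField.map (algebraMap 𝒪 T) with
      commutes' := fun o => ResidueField.map_residue (algebraMap 𝒪 T) o }
  have h1 : f (b.z r φ) = b.z (mapRep (f : T →+* ResidueField T) r) φ :=
    b.map_z f r (b.isUnit_det hr) φ
  have h2 : f' (b.z rbar φ) = b.z (mapRep (f' : ResidueField 𝒪 →+* ResidueField T) rbar) φ :=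
    b.map_z f' rbar (isUnit_iff_ne_zero.mpr b.det) φ
  have h3 : mapRep (f : T →+* ResidueField T) r =
      mapRep (f' : ResidueField 𝒪 →+* ResidueField T) rbar := by
    refine MonoidHom.ext fun σ => Matrix.ext fun i j => ?_
    obtain ⟨o, ho⟩ := residue_surjective (rbar σ i j)
    have h4 := hr σ i j o ho
    rw [← residue_eq_zero_iff, map_sub, sub_eq_zero] at h4
    rw [mapRep_apply, mapRep_apply, ← ho]
    refine Eq.trans ?_ (ResidueField.map_residue (algebraMap 𝒪 T) o).symm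
    exact h4
  rw [← residue_eq_zero_iff, map_sub, sub_eq_zero]
  have h5 : residue T (b.z r φ) = f (b.z r φ) := rfl
  rw [h5, h1, h3, ← h2, h]
  exact ResidueField.map_residue (algebraMap 𝒪 T) z₀

end res

section real

variable {D : Type} [CommGroup D] [Fintype D] [∀ (W : TWD D) (t : ℕ → LT), Fintype (W.Yt t)]
  {m : ℕ} {p : ℕ} [hp : Fact p.Prime]
  {O : Type} [CommRing O] [IsDomain O] [IsDiscreteValuationRing O]
  [IsAdicComplete (maximalIdeal O) O] {χ : GQ → O} {rbar : GQ →* M2 (ResidueField O)}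
  {sd : SliceData rbar} (b : Bas p χ rbar)
  {g n : ℕ} {P : Fin g → TWP rbar} {W : TWD D} {hM : W.M ∣ m} {𝔪 : Ideal (TPoly m O)}
  [𝔪.IsPrime] {n' : ℕ} {R : HRep (m := m) p n' sd (MQ W hM 𝔪 O)} {B : BMod sd} {L : TMod p P n B}
  (a : RealT L W hM 𝔪 R)

theorem z_real (φ : GQ) : b.z L.C.r φ = a.c (b.z R.C.r φ) := by
  have h1 := b.map_z (a.c : R.C.T →ₐ[O] L.C.T) R.C.r (b.isUnit_det R.C.red) φ
  have h2 : mapRep ((a.c : R.C.T →ₐ[O] L.C.T) : R.C.T →+* L.C.T) R.C.r = L.C.r := a.hr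
  rw [h2] at h1
  exact h1.symm

end real

section main

variable {D : Type} [CommGroup D] [Fintype D] [∀ (W : TWD D) (t : ℕ → LT), Fintype (W.Yt t)]
  (W : TWD D) {m : ℕ} {p : ℕ} [hp : Fact p.Prime] (hpQ : p ∉ W.Q)
  (hM : W.M ∣ m) (hM' : (raise W hp.out hpQ).M ∣ m) (hpN : ¬ p ∣ W.N) (hm : m ≠ 0)
  {O : Type} [CommRing O] [IsDomain O] [IsDiscreteValuationRing O]
  [IsAdicComplete (maximalIdeal O) O] [Finite (ResidueField O)] [CharZero O]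
  (hpO : (p : O) ∈ maximalIdeal O)
  (E : Type) [Field E] [Algebra O E] [CharZero E] [IsAlgClosed E]
  (hOE : Function.Injective (algebraMap O E))
  (𝔪 : Ideal (TPoly m O)) [𝔪.IsMaximal] (hE : NonEis W.M 𝔪)
  (hE' : NonEis (raise W hp.out hpQ).M 𝔪)
  {χ : GQ → O} {rbar : GQ →* M2 (ResidueField O)} {sd : SliceData rbar} (b : Bas p χ rbar)
  (hspan : Submodule.span (ResidueField O) (Set.range rbar) = ⊤)
  {g n : ℕ} {P : Fin g → TWP rbar} {n₁ n₂ : ℕ}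
  {R₁ : HRep (m := m) p n₁ sd (MQ W hM 𝔪 O)}
  {R₂ : HRep (m := m) p n₂ sd (MQ (raise W hp.out hpQ) hM' 𝔪 O)}
  {B₁ B₂ : BMod sd} {L₁ : TMod p P n B₁} {L₂ : TMod p P n B₂}
  (a₁ : RealT L₁ W hM 𝔪 R₁) (a₂ : RealT L₂ (raise W hp.out hpQ) hM' 𝔪 R₂)
  {φ : GQ} {z₀ : O}

include hOE hE in
/-- the operator `T_p` of the degeneracy data -/
theorem T_eq (hU2 : HU2 p m (W.N * W.dd * W.dd) E R₁.φ (b.z R₁.C.r φ)) {Z Z' : TPoly m O}
    (hZ : R₁.φ Z = b.z R₁.C.r φ) (hZ' : R₁.φ Z * R₁.φ Z' = 1) (x : MQ W hM 𝔪 O) :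
    (DQ W hp.out hpQ hM hM' hpN 𝔪 O).T x = (Z + (p : TPoly m O) * Z') • x := by
  have h1 := tpz W hM 𝔪 E hOE R₁.φ R₁.surj (fun P hP => (R₁.ker P).mp hP) hE hp.out
    (coprime_M W hp.out hpQ hpN) (degTW W hp.out hpQ O O (fun _ => .chi) hM hM' hpN).T
    (degTW_T W hp.out hpQ O O (fun _ => .chi) hM hM' hpN) Z Z' hZ' (by rw [hZ]; exact hU2) x
  rw [add_smul, mul_smul, Nat.cast_smul_eq_nsmul]
  exact h1

include hOE hE in
theorem comp_z (hU2 : HU2 p m (W.N * W.dd * W.dd) E R₁.φ (b.z R₁.C.r φ)) (zi : L₁.C.T)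
    (hzi : b.z L₁.C.r φ * zi = 1) (x y : L₁.M) :
    downA W hp.out hpQ hM hM' hpN 𝔪 a₁ a₂ (upA W hp.out hpQ hM hM' hpN 𝔪 a₁ a₂ (x, y)) =
      ((((p : ℕ) : L₁.C.T) + 1) • x + (b.z L₁.C.r φ + ((p : ℕ) : L₁.C.T) * zi) • y,
       (b.z L₁.C.r φ + ((p : ℕ) : L₁.C.T) * zi) • x + (((p : ℕ) : L₁.C.T) + 1) • y) := by
  obtain ⟨Z, hZ⟩ := R₁.surj (b.z R₁.C.r φ)
  obtain ⟨Z', hZ'⟩ := a₁.exists_poly zi
  have hz : b.z L₁.C.r φ = a₁.c (R₁.φ Z) := by rw [z_real b a₁, hZ]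
  have hZZ : R₁.φ Z * R₁.φ Z' = 1 := by
    apply a₁.c.injective
    rw [map_mul, ← hz, hZ', hzi, map_one]
  have hT := T_eq W hpQ hM hM' hpN E hOE 𝔪 hE b hU2 hZ hZZ
  have h1 : ∀ z : L₁.M, a₁.e (((p : L₁.C.T) + 1) • z) = (p + 1) • a₁.e z := by
    intro z
    have h : ((p : L₁.C.T) + 1) • z = (p + 1) • z := by
      rw [← Nat.cast_succ, Nat.cast_smul_eq_nsmul]
    rw [h, map_nsmul]
  have h2 : ∀ z : L₁.M, a₁.e ((b.z L₁.C.r φ + ((p : ℕ) : L₁.C.T) * zi) • z) =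
      (DQ W hp.out hpQ hM hM' hpN 𝔪 O).T (a₁.e z) := by
    intro z
    rw [hT, ← a₁.smul, map_add, map_mul, map_natCast, map_add, map_mul, map_natCast, hZ', ← hz]
  have h3 := (DQ W hp.out hpQ hM hM' hpN 𝔪 O).down_up (a₁.e x) (a₁.e y)
  refine Prod.ext (a₁.e.injective ?_) (a₁.e.injective ?_)
  · rw [e_downA₁, e_upA, h3]
    show _ = a₁.e (((p : L₁.C.T) + 1) • x + (b.z L₁.C.r φ + ((p : ℕ) : L₁.C.T) * zi) • y)
    rw [map_add, h1, h2]
    rfl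
  · rw [e_downA₂, e_upA, h3]
    show _ = a₁.e ((b.z L₁.C.r φ + ((p : ℕ) : L₁.C.T) * zi) • x + ((p : L₁.C.T) + 1) • y)
    rw [map_add, h1, h2]
    rfl

variable {ϖ : O} (hϖ : Irreducible ϖ)
  (hinj : UpInj (D0 W hp.out hpQ hM hM' hpN 𝔪 O) (MvPolynomial.C ϖ))
  (hsurj : Function.Surjective (D0 W hp.out hpQ hM hM' hpN 𝔪 O).down)

include hm hpO hOE hE hE' hspan a₁ hϖ hinj in
theorem new_z (hp2 : p ≠ 2) (hz₀ : z₀ ^ 2 = 1) (hres : b.z rbar φ = residue O z₀)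
    (hU2 : HU2 p m (W.N * W.dd * W.dd) E R₁.φ (b.z R₁.C.r φ))
    (hU1 : HU1 p m (W.N * W.dd * W.dd) E R₂.φ (b.z R₂.C.r φ) z₀) (x : L₂.M) :
    ∃ y, (b.z L₂.C.r φ - algebraMap O _ z₀) • x =
      upA W hp.out hpQ hM hM' hpN 𝔪 a₁ a₂ y := by
  have hES : ∀ (n : ℕ) [NeZero n], ES n := fun n _ => Tate.es n
  obtain ⟨Z, hZ⟩ := R₂.surj (b.z R₂.C.r φ)
  have hz₂ : b.z L₂.C.r φ = a₂.c (R₂.φ Z) := by rw [z_real b a₂, hZ]
  -- the element `Z` on the lower level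
  obtain ⟨g', hg, hgr⟩ := exists_TA₀ hES W hp.out hpQ hM hM' hpN hm 𝔪 hE hspan a₁ a₂
  have hz₁ : R₁.φ Z = b.z R₁.C.r φ := by
    apply a₁.c.injective
    rw [← z_real b a₁, ← hg, ← hz₂]
    have h1 := b.map_z g' L₂.C.r (b.isUnit_det L₂.C.red) φ
    rw [hgr] at h1
    exact h1
  -- the inverse
  have hmem : R₂.φ Z - algebraMap O R₂.C.T z₀ ∈ maximalIdeal R₂.C.T := by
    rw [hZ]
    exact z_sub_mem b R₂.C.red hres
  have hz₀u : IsUnit (algebraMap O R₂.C.T z₀) := (IsUnit.of_pow_eq_one hz₀ two_ne_zero).map _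
  have hzu : IsUnit (R₂.φ Z) := by
    by_contra hcon
    have h1 := sub_mem ((mem_maximalIdeal _).mpr hcon) hmem
    rw [sub_sub_cancel] at h1
    exact (mem_maximalIdeal _).mp h1 hz₀u
  obtain ⟨zi, hzi⟩ := hzu.exists_right_inv
  obtain ⟨Z', rfl⟩ := R₂.surj zi
  have hker : ∀ P : TPoly m O, R₂.φ P = 0 → R₁.φ P = 0 := by
    intro P hP
    apply a₁.c.injective
    rw [← hg, hP, map_zero, map_zero, map_zero]
  have hZZ : R₁.φ Z * R₁.φ Z' = 1 := by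
    have h1 := hker (Z * Z' - 1) (by rw [map_sub, map_mul, hzi, map_one, sub_self])
    rwa [map_sub, map_mul, map_one, sub_eq_zero] at h1
  have hT := T_eq W hpQ hM hM' hpN E hOE 𝔪 hE b hU2 hz₁ hZZ
  have hred : IsReduced R₂.C.T := R₂.red
  have key := mem_range_hecke (O := O) (DQ W hp.out hpQ hM hM' hpN 𝔪 O).up
    (DQ W hp.out hpQ hM hM' hpN 𝔪 O).down p R₂.φ
    (fun P hP x => (R₂.ker P).mp hP x) (hp.out.odd_of_ne_two hp2) hpO
    (by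
      rw [← map_natCast (algebraMap O R₂.C.T)]
      exact map_nonunit (algebraMap O R₂.C.T) _ hpO)
    z₀ hz₀ (z := Z) (zi := Z') R₂.surj
    (fun x => by
      have h1 := (R₂.ker (Z * Z' - 1)).mp (by rw [map_sub, map_mul, hzi, map_one, sub_self]) x
      rwa [sub_smul, one_smul, sub_eq_zero] at h1)
    hmem
    (fun c d => by
      have h1 := (DQ W hp.out hpQ hM hM' hpN 𝔪 O).down_up c d
      rw [h1, hT, hT]
      have h2 : ∀ c : MQ W hM 𝔪 O, (p + 1) • c = ((p : TPoly m O) + 1) • c := by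
        intro c
        rw [← Nat.cast_succ, Nat.cast_smul_eq_nsmul]
      exact Prod.ext (congrArg (· + _) (h2 c)) (congrArg (_ + ·) (h2 d)))
    (fun x hx => by
      have h1 := kdp W hp.out hpQ hM hM' hpN 𝔪 E hOE R₂.φ R₂.surj
        (fun P hP => (R₂.ker P).mp hP) hE' Z z₀ (by rw [hZ]; exact hU1) x hx
      rw [sub_smul, h1, MvPolynomial.algebraMap_eq, Loc.C_smul, sub_self])
    (fun o x ho hx => by
      obtain ⟨y, hy⟩ := hx
      rw [MvPolynomial.algebraMap_eq, Loc.C_smul] at hy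
      obtain ⟨y', hy'⟩ := up_sat₀ hES W hp.out hpQ hM hM' hpN hm hpO 𝔪 hE hE' hspan a₁ a₂ hϖ
        hinj o x ho ⟨y, hy.symm⟩
      exact ⟨y', hy'.symm⟩) (a₂.e x)
  obtain ⟨y, hy⟩ := key
  obtain ⟨u, hu⟩ := a₁.e.surjective y.1
  obtain ⟨v, hv⟩ := a₁.e.surjective y.2
  refine ⟨(u, v), a₂.e.injective ?_⟩
  rw [e_upA, hu, hv, hz₂, a₂.algebraMap_eq, ← map_sub, ← map_sub, a₂.smul,
    ← MvPolynomial.algebraMap_eq]
  exact hy

/-- **Degeneracy data at `p`.** -/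
def mkDegZ (hp2 : p ≠ 2) (hz₀ : z₀ ^ 2 = 1) (hres : b.z rbar φ = residue O z₀)
    (hU2 : HU2 p m (W.N * W.dd * W.dd) E R₁.φ (b.z R₁.C.r φ))
    (hU1 : HU1 p m (W.N * W.dd * W.dd) E R₂.φ (b.z R₂.C.r φ) z₀) :
    DegZ L₂ L₁ (FrobsOut m) b φ z₀ where
  toDegT := mkDegT W hp.out hpQ hM hM' hpN hpO 𝔪 a₁ a₂ hϖ hinj hsurj
  comp zi hzi x y := comp_z W hpQ hM hM' hpN E hOE 𝔪 hE b a₁ a₂ hU2 zi hzi x y
  new x := new_z W hpQ hM hM' hpN hm hpO E hOE 𝔪 hE hE' b hspan a₁ a₂ hϖ hinj hp2 hz₀ hres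
    hU2 hU1 x

include hpN hOE hE' a₂ in
/-- **`p`-new levels**: `b.z = z₀` if there is nothing of level `N`. -/
theorem new_p (hU1 : HU1 p m (W.N * W.dd * W.dd) E R₂.φ (b.z R₂.C.r φ) z₀)
    (hsub : Subsingleton (MQ W hM 𝔪 O)) (x : L₂.M) :
    (b.z L₂.C.r φ - algebraMap O _ z₀) • x = 0 := by
  obtain ⟨Z, hZ⟩ := R₂.surj (b.z R₂.C.r φ)
  have hz₂ : b.z L₂.C.r φ = a₂.c (R₂.φ Z) := by rw [z_real b a₂, hZ]
  have h1 := kdp_of_subsingleton W hp.out hpQ hM hM' hpN 𝔪 E hOE R₂.φ R₂.surj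
    (fun P hP => (R₂.ker P).mp hP) hE' Z z₀ (by rw [hZ]; exact hU1) (a₂.e x)
  apply a₂.e.injective
  rw [hz₂, a₂.algebraMap_eq, ← map_sub, ← map_sub, a₂.smul, sub_smul, h1, Loc.C_smul, sub_self,
    map_zero]

end main

end Fermat.Agent.PInX

end
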