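import Fermat.Agent.PInX.Alg
import Fermat.Agent.RTan.Mod

/-!
# The input at `p`: assembly from degeneracy maps
-/

set_option autoImplicit false
set_option linter.unusedSectionVars false

namespace Fermat.Agent.PInX

open IsLocalRing Module Fermat.Agent.RT1 Fermat.Agent.RT8 Fermat.Agent.RT8J
open Fermat.Agent.DefRing (MatCont Red Norm SliceData M2 GQ mapRep)

section lam

variable {p g : ℕ} {𝒪 : Type} [CommRing 𝒪] [IsDomain 𝒪] [IsDiscreteValuationRing 𝒪]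
  [IsAdicComplete (maximalIdeal 𝒪) 𝒪]

/-- the group algebra is local. -/
theorem isLocalRing_Lam (hp : p.Prime) (hp𝒪 : (p : 𝒪) ∈ maximalIdeal 𝒪) (n : ℕ) :
    IsLocalRing (Lam p g 𝒪 n) := by
  have hne : NeZero p := ⟨hp.ne_zero⟩
  have hmax : (JLam p g 𝒪 n).IsMaximal := by
    rw [← ker_kapL]
    exact RingHom.ker_isMaximal_of_surjective _ kapL_surjective
  have hcomp := isAdicComplete_Lam (g := g) (𝒪 := 𝒪) hp hp𝒪 n
  refine IsLocalRing.of_unique_max_ideal ⟨JLam p g 𝒪 n, hmax, fun I hI => ?_⟩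
  have h1 : JLam p g 𝒪 n ≤ I :=
    (IsAdicComplete.le_jacobson_bot (JLam p g 𝒪 n)).trans (sInf_le ⟨bot_le, hI⟩)
  exact (hmax.eq_of_le hI.ne_top h1).symm

/-- A linear map between free modules which is injective modulo `J` is split. -/
theorem exists_retract (hp : p.Prime) (hp𝒪 : (p : 𝒪) ∈ maximalIdeal 𝒪) (n : ℕ) {M N : Type*}
    [AddCommGroup M] [Module (Lam p g 𝒪 n) M] [AddCommGroup N] [Module (Lam p g 𝒪 n) N]
    {d d' : Type*} [Fintype d] [DecidableEq d] [Fintype d'] [DecidableEq d']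
    (b : Basis d (Lam p g 𝒪 n) M) (c : Basis d' (Lam p g 𝒪 n) N) (f : M →ₗ[Lam p g 𝒪 n] N)
    (hf : ∀ x, f x ∈ (JLam p g 𝒪 n • ⊤ : Submodule (Lam p g 𝒪 n) N) →
      x ∈ (JLam p g 𝒪 n • ⊤ : Submodule (Lam p g 𝒪 n) M)) :
    ∃ r : N →ₗ[Lam p g 𝒪 n] M, ∀ x, r (f x) = x := by
  have hne : NeZero p := ⟨hp.ne_zero⟩
  have hloc := isLocalRing_Lam (g := g) (𝒪 := 𝒪) hp hp𝒪 n
  have hinj := mulVec_injective_of_sat' (kapL p g 𝒪 n) kapL_surjective b c f (by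
    rw [ker_kapL]
    exact hf)
  obtain ⟨N', hN'⟩ := exists_left_inverse_lift (kapL p g 𝒪 n) kapL_surjective _ hinj
  refine ⟨Matrix.toLin c b N', fun x => ?_⟩
  have h1 : Matrix.toLin c b N' ∘ₗ f = LinearMap.id := by
    rw [← Matrix.toLin_toMatrix b c f, ← Matrix.toLin_mul b c b, hN', Matrix.toLin_one]
  exact LinearMap.congr_fun h1 x

end lam

section sys

variable {𝒪 : Type} [CommRing 𝒪] [IsDomain 𝒪] [IsDiscreteValuationRing 𝒪]
  [IsAdicComplete (maximalIdeal 𝒪) 𝒪] [Finite (ResidueField 𝒪)]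
  {rbar : GQ →* M2 (ResidueField 𝒪)}
  {sd : SliceData rbar} {p g : ℕ} {Λ K : Type} [Fintype Λ] [DecidableEq Λ] [Finite K]
  {X : MSys sd p g Λ K} (hp : p.Prime) (hp𝒪 : (p : 𝒪) ∈ maximalIdeal 𝒪)
  {n : ℕ} {k k' : K} (W : DegM X n k k')

theorem smul_eq_zero_of_free {M : Type*} [AddCommGroup M] [Module (Lam p g 𝒪 n) M]
    {d : Type*} [Fintype d] (b : Basis d (Lam p g 𝒪 n) M) {o : 𝒪} (ho : o ≠ 0) {x : M}
    (hx : algebraMap 𝒪 (Lam p g 𝒪 n) o • x = 0) : x = 0 := by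
  apply b.ext_elem
  intro i
  have h1 := congrArg (fun y => b.repr y i) hx
  simp only [map_smul, Finsupp.smul_apply, smul_eq_mul, map_zero, Finsupp.zero_apply] at h1 ⊢
  rw [← Algebra.smul_def] at h1
  exact (smul_eq_zero.mp h1).resolve_left ho

include hp hp𝒪 in
/-- the cokernel of `up` is torsion free. -/
theorem up_sat {o : 𝒪} (ho : o ≠ 0) (x : (X.L n k).M)
    (hx : ∃ y, algebraMap 𝒪 (X.L n k).C.T o • x = W.up y) : ∃ y, x = W.up y := by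
  have hne : NeZero p := ⟨hp.ne_zero⟩
  obtain ⟨r, hr⟩ := exists_retract hp hp𝒪 n
    (((X.L n k').b hp hp𝒪).prod ((X.L n k').b hp hp𝒪)) ((X.L n k).b hp hp𝒪)
    (W.upL hp hp𝒪) (fun x hx => by
      obtain ⟨h1, h2⟩ := W.inj x.1 x.2 hx
      exact mem_smul_top_prod _ h1 h2)
  obtain ⟨y, hy⟩ := hx
  rw [(X.L n k).h𝒪] at hy
  refine ⟨r x, ?_⟩
  have h1 : algebraMap 𝒪 (Lam p g 𝒪 n) o • r x = y := by
    rw [← map_smul, hy]
    exact hr y
  have h2 : algebraMap 𝒪 (Lam p g 𝒪 n) o • (x - W.upL hp hp𝒪 (r x)) = 0 := by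
    rw [smul_sub, ← map_smul, h1, hy]
    exact sub_self _
  exact sub_eq_zero.mp (smul_eq_zero_of_free ((X.L n k).b hp hp𝒪) ho h2)

theorem prK_surjective (n : ℕ) (k : K) : Function.Surjective (X.prK hp hp𝒪 n k) := by
  rw [← AlgHom.range_eq_top, eq_top_iff, ← (X.L n k).gen]
  refine Algebra.adjoin_le ?_
  rintro _ ⟨σ, i, j, rfl⟩
  refine ⟨(X.A hp hp𝒪 n).r0 σ i j, ?_⟩
  exact congrFun (congrFun ((X.A hp hp𝒪 n).pr_r0_apply (some k) σ) i) j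

include hp hp𝒪 in
/-- **The cokernel of `up` is killed by `z - z₀`.** -/
theorem mem_range_degM (hodd : Odd p) [IsReduced (X.L n k).C.T] {z₀ : 𝒪} (hz₀ : z₀ ^ 2 = 1)
    {z : (X.A hp hp𝒪 n).R} (hz : z - algebraMap 𝒪 _ z₀ ∈ maximalIdeal (X.A hp hp𝒪 n).R)
    (hdu : ∀ zi : (X.L n k').C.T, X.prK hp hp𝒪 n k' z * zi = 1 → ∀ x y,
      W.down (W.up (x, y)) =
        ((((p : ℕ) : (X.L n k').C.T) + 1) • x +
          (X.prK hp hp𝒪 n k' z + ((p : ℕ) : (X.L n k').C.T) * zi) • y,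
         (X.prK hp hp𝒪 n k' z + ((p : ℕ) : (X.L n k').C.T) * zi) • x +
          (((p : ℕ) : (X.L n k').C.T) + 1) • y))
    (hK : ∀ x : (X.L n k).M, W.down x = 0 →
      (X.prK hp hp𝒪 n k z - algebraMap 𝒪 _ z₀) • x = 0) (x : (X.L n k).M) :
    ∃ y, (X.prK hp hp𝒪 n k z - algebraMap 𝒪 _ z₀) • x = W.up y := by
  let m₁ : Module (X.A hp hp𝒪 n).R (X.L n k').M :=
    Module.compHom _ (X.prK hp hp𝒪 n k' : (X.A hp hp𝒪 n).R →+* (X.L n k').C.T)
  let m₂ : Module (X.A hp hp𝒪 n).R (X.L n k).M :=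
    Module.compHom _ (X.prK hp hp𝒪 n k : (X.A hp hp𝒪 n).R →+* (X.L n k).C.T)
  have e₁ : ∀ (a : (X.A hp hp𝒪 n).R) (x : (X.L n k').M), a • x = X.prK hp hp𝒪 n k' a • x := fun _ _ => rfl
  have e₂ : ∀ (a : (X.A hp hp𝒪 n).R) (x : (X.L n k).M), a • x = X.prK hp hp𝒪 n k a • x := fun _ _ => rfl
  let up : (X.L n k').M × (X.L n k').M →ₗ[(X.A hp hp𝒪 n).R] (X.L n k).M :=
    { W.up with
      map_smul' := fun a x => W.up_lin hp hp𝒪 a x.1 x.2 }
  let down : (X.L n k).M →ₗ[(X.A hp hp𝒪 n).R] (X.L n k').M × (X.L n k').M :=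
    { W.down with
      map_smul' := fun a x => W.down_lin hp hp𝒪 a x }
  have hz₀u : IsUnit (algebraMap 𝒪 (X.A hp hp𝒪 n).R z₀) := (IsUnit.of_pow_eq_one hz₀ two_ne_zero).map _
  have hzu : IsUnit z := by
    by_contra hcon
    have h1 := sub_mem ((mem_maximalIdeal _).mpr hcon) hz
    rw [sub_sub_cancel] at h1
    exact (mem_maximalIdeal _).mp h1 hz₀u
  obtain ⟨zi, hzi⟩ := hzu.exists_right_inv
  have hs := prK_surjective (X := X) hp hp𝒪 n k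
  have hlh : IsLocalHom (X.prK hp hp𝒪 n k : (X.A hp hp𝒪 n).R →+* (X.L n k).C.T) :=
    IsLocalHom.of_surjective _ hs
  have key := mem_range_hecke (O := 𝒪) up down p (X.prK hp hp𝒪 n k)
    (fun b hb x => by rw [e₂, hb, zero_smul]) hodd hp𝒪
    (by
      rw [← map_natCast (algebraMap 𝒪 (X.L n k).C.T)]
      exact map_nonunit (algebraMap 𝒪 (X.L n k).C.T) _ hp𝒪)
    z₀ hz₀ (z := z) (zi := zi) hs
    (fun x => by rw [hzi, one_smul])
    (by
      have h1 := map_nonunit (X.prK hp hp𝒪 n k : (X.A hp hp𝒪 n).R →+* (X.L n k).C.T) _ hz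
      rw [map_sub] at h1
      have h2 : (X.prK hp hp𝒪 n k : (X.A hp hp𝒪 n).R →+* (X.L n k).C.T) (algebraMap 𝒪 (X.A hp hp𝒪 n).R z₀) =
        algebraMap 𝒪 _ z₀ := (X.prK hp hp𝒪 n k).commutes z₀
      rw [h2] at h1
      exact h1)
    (fun a b => by
      have h1 := hdu (X.prK hp hp𝒪 n k' zi) (by rw [← map_mul, hzi, map_one]) a b
      have h2 : X.prK hp hp𝒪 n k' ((p : (X.A hp hp𝒪 n).R) + 1) = ((p : ℕ) : (X.L n k').C.T) + 1 := by
        rw [map_add, map_natCast, map_one]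
      have h3 : X.prK hp hp𝒪 n k' (z + (p : (X.A hp hp𝒪 n).R) * zi) = X.prK hp hp𝒪 n k' z +
          ((p : ℕ) : (X.L n k').C.T) * X.prK hp hp𝒪 n k' zi := by
        rw [map_add, map_mul, map_natCast]
      change W.down (W.up (a, b)) = _
      rw [h1, e₁, e₁, e₁, e₁, h2, h3])
    (fun x hx => by
      rw [e₂, map_sub, AlgHom.commutes]
      exact hK x hx)
    (fun o x ho hx => by
      obtain ⟨y, hy⟩ := hx
      rw [e₂, AlgHom.commutes] at hy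
      exact up_sat hp hp𝒪 W ho x ⟨y, hy⟩) x
  rw [e₂, map_sub, AlgHom.commutes] at key
  exact key

end sys

section final

open Fermat.Agent.RTan

variable {𝒪 : Type} [CommRing 𝒪] [IsDomain 𝒪] [IsDiscreteValuationRing 𝒪]
  [IsAdicComplete (maximalIdeal 𝒪) 𝒪] [Finite (ResidueField 𝒪)] {p : ℕ}
  [hp : Fact p.Prime] {rbar : GQ →* M2 (ResidueField 𝒪)} {sd : SliceData rbar} {m : ℕ}
  {Λ K : Type} [Fintype Λ] [DecidableEq Λ] [Finite K]
  {X : RT8.MSys sd p m Λ K} {χ : GQ → 𝒪} (hp𝒪 : (p : 𝒪) ∈ maximalIdeal 𝒪)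
  (b : Bas p χ rbar)

include hp𝒪 in
/-- **The input at `p` in case (B), second alternative.** -/
theorem pmodB_of_degM (hp2 : p ≠ 2) {φ τ : GQ} {z₀ : 𝒪} (hz₀ : z₀ ^ 2 = 1)
    (hres : b.z rbar φ = residue 𝒪 z₀) {k k' : K} {S₀ : Finset Λ} (W : ∀ n, RT8.DegM X n k k')
    (hred : ∀ n, IsReduced (X.L n k).C.T) (hram : X.ram k' = S₀) (hd : 0 < (X.B k').d)
    (hτ : ∀ n, (X.L n k').C.r τ = 1)
    (hdu : ∀ n (zi : (X.L n k').C.T), b.z (X.L n k').C.r φ * zi = 1 →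
      ∀ x y, (W n).down ((W n).up (x, y)) =
        ((((p : ℕ) : (X.L n k').C.T) + 1) • x +
          (b.z (X.L n k').C.r φ + ((p : ℕ) : (X.L n k').C.T) * zi) • y,
         (b.z (X.L n k').C.r φ + ((p : ℕ) : (X.L n k').C.T) * zi) • x +
          (((p : ℕ) : (X.L n k').C.T) + 1) • y))
    (hK : ∀ n (x : (X.L n k).M), (W n).down x = 0 →
      (b.z (X.L n k).C.r φ - algebraMap 𝒪 _ z₀) • x = 0) :
    PModB X b φ τ z₀ k S₀ := by
  refine Or.inr ⟨k', W, hram, hd, hτ, hdu, fun n x => ?_⟩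
  obtain ⟨π, hπ⟩ := RT8J.exists_pi (𝒪 := 𝒪) (R := (X.A hp.out hp𝒪 n).R)
    (X.A hp.out hp𝒪 n).surj
  have hz : b.z (X.A hp.out hp𝒪 n).r0 φ - algebraMap 𝒪 _ z₀ ∈
      maximalIdeal (X.A hp.out hp𝒪 n).R := by
    rw [← RT8J.pi_eq_zero_iff π hπ, map_sub, pi_z b (Y := X.toSys hp.out hp𝒪) (n := n) hπ φ, hπ,
      hres, sub_self]
  have h := hred n
  have key := mem_range_degM hp.out hp𝒪 (W n) (hp.out.odd_of_ne_two hp2) hz₀ hz (by
    rw [prK_z]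
    exact hdu n) (by
    rw [prK_z]
    exact hK n) x
  rw [prK_z] at key
  exact key

end final

end Fermat.Agent.PInX
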