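import Fermat.Agent.TWDeg.PtH
import Fermat.Agent.TWDeg.Dims
import Fermat.Agent.TWDeg.Pts
import Fermat.Agent.Tate.JInput

/-!
# The Hecke operator `T_p` on Taylor-Wiles modules of level prime to `p`

If `z` is a unit of the Hecke algebra such that `f(z)^2 - b f(z) + p = 0` for all points `f`, `b` the
eigenvalue of `T_p`, then `T_p = z + p/z`.
-/

set_option autoImplicit false
set_option linter.unusedSectionVars false

noncomputable section

namespace Fermat.Agent.PInX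

open Fermat.Agent.TW Fermat.Agent.TWDeg HeckeHom ModularCurve.Period CongruenceSubgroup
open scoped MatrixGroups

section Change

variable {m m₀ M : ℕ} (hM : M ∣ m) (hM₀ : M ∣ m₀) (hmm : m₀ ∣ m) {R : Type} [CommRing R]
  {V : Type} [AddCommGroup V] [Module R V] (ρ : Representation R (Gp M) V)

/-- the cohomology group does not depend on the excluded primes -/
def chE : (XF hM).H ρ ≃+ (XF hM₀).H ρ :=
  (AddEquiv.refl (H1 (Lvl.full.ι M) ρ) : H1 (Lvl.full.ι M) ρ ≃+ H1 (Lvl.full.ι M) ρ)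

theorem incl_C (a : R) : incl hmm R (MvPolynomial.C a) = MvPolynomial.C a :=
  MvPolynomial.rename_C _ _

theorem incl_eis (l : Pr m) : incl hmm R (eis R l) = eis R (TWDeg.Pr.incl hmm l) := by
  change incl hmm R (MvPolynomial.X l - MvPolynomial.C _) = _
  rw [map_sub, incl_X, incl_C]
  rfl

theorem chE_smul (P : TPoly m R) (x : (XF hM).H ρ) :
    chE hM hM₀ ρ (P • x) = incl hmm R P • chE hM hM₀ ρ x := by
  induction P using MvPolynomial.induction_on generalizing x with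
  | C a =>
    rw [Stg.C_smul, incl_C, Stg.C_smul]
    rfl
  | add P Q hP hQ => rw [add_smul, map_add, map_add, add_smul, hP, hQ]
  | mul_X P l hP =>
    rw [mul_smul, hP, map_mul, mul_smul, incl_X, Stg.X_smul, Stg.X_smul]
    rfl

/-- the Hecke operator at a prime which is excluded for `m` but not for `m₀` -/
theorem chE_T (l : Pr m₀) (hlM : (l : ℕ).Coprime M) (x : (XF hM).H ρ) :
    chE hM hM₀ ρ ((Lvl.full.corrT M l.2.1 hlM (Lvl.ok_full l)).map ρ x) =
      (MvPolynomial.X l : TPoly m₀ R) • chE hM hM₀ ρ x := by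
  rw [Stg.X_smul]
  rfl

end Change

section Tor

variable {D : Type} [CommGroup D] [Fintype D] (W : TWD D) {m : ℕ} (hM : W.M ∣ m)
  {O E : Type} [CommRing O] [Field E] [Algebra O E] [CharZero E] [IsAlgClosed E]
  (χ : TPoly m O →ₐ[O] E)

/-- existence of an eigenvector with coefficients in functions on `GL₂/K` -/
def EigK (K : Subgroup (GL (Fin 2) (ZMod W.M))) : Prop :=
  ∃ v : (XF hM).H (funRep (M := W.M) O E (GL (Fin 2) (ZMod W.M) ⧸ K)), EigX (XF hM) v χ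

variable {χ} (l₀ : Pr m) (hl₀ : ((l₀ : ℕ) : ZMod W.M) = 1) (hχ : χ (eis O l₀) ≠ 0)

include hl₀ hχ in
theorem EigK.step {t : ℕ → LT} {q : ℕ} (hq : q ∈ W.Q)
    (h : EigK W hM χ (W.K (Function.update t q .chi))) :
    EigK W hM χ (W.K (Function.update t q .tor)) := by
  obtain ⟨v, hv⟩ := h
  have : Fact q.Prime := ⟨W.tws.prime q hq⟩
  let TD := mkTwist (t := t) (χ := W.χ) W.tws hq (W.surj q hq)
  obtain ⟨ψ, hψ⟩ := exists_twist_ne (XF hM) ⟨ModularGroup.T, rfl⟩ TD W.odd (W.surj q hq) hv l₀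
    hl₀ hχ
  exact ⟨_, hv.map (TD.twistC O ψ) (twistC_lin TD ψ) hψ⟩

include hl₀ hχ in
theorem EigK.iter (C : Finset ℕ) (hC : C ⊆ W.Q) (h : EigK W hM χ (W.K (mixT C))) :
    EigK W hM χ (W.K fun _ => .tor) := by
  classical
  induction C using Finset.induction_on with
  | empty =>
    rw [mixT_empty] at h
    exact h
  | insert q C hq ih =>
    have hqQ : q ∈ W.Q := hC (Finset.mem_insert_self _ _)
    apply ih fun x hx => hC (Finset.mem_insert_of_mem hx)
    rw [mixT_insert] at h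
    have h1 := EigK.step W hM l₀ hl₀ hχ hqQ h
    rwa [mixT_update C hq] at h1

include hl₀ hχ in
/-- **An eigenvector of Taylor-Wiles level gives an eigenvector of torus level.** -/
theorem exists_torE (v : (XF hM).H (funRep (M := W.M) O E W.YQ)) (hv : IsEig hM v χ) :
    ∃ v' : (XF hM).H (funRep (M := W.M) O E (W.Yt fun _ => .tor)), IsEig hM v' χ := by
  have h0 : EigK W hM χ (W.K fun _ => .chi) := ⟨v, hv.ne, hv.eig⟩
  have hK : W.K (mixT W.Q) = W.K fun _ => .chi := Yt_congr W fun q hq => if_pos hq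
  rw [← hK] at h0
  obtain ⟨v', hv'⟩ := EigK.iter W hM l₀ hl₀ hχ W.Q (Finset.Subset.refl _) h0
  exact ⟨v', hv'.ne, hv'.eig⟩

end Tor

/-- [U2] at all points of `T`: if `b` is the eigenvalue of `T_p` on an eigenvector of level `n` with
the eigenvalues given by the point `f`, then `f(z)^2 - b f(z) + p = 0`. -/
def HU2 (p m n : ℕ) {O T : Type} [CommRing O] [CommRing T] [Algebra O T] (E : Type) [Field E]
    [Algebra O E] (φ : TPoly m O →ₐ[O] T) (z : T) : Prop :=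
  ∀ (f : T →ₐ[O] E) (hp : p.Prime) (hpn : ¬ p ∣ n) (b : E) (ψ : Additive (Gamma0 n) →+ E),
    ψ ∈ parabolicHoms E (Gamma0 n) E → ψ ≠ 0 →
    (∀ (s : ℕ) (hs : s.Prime) (hsn : ¬ s ∣ n) (hsm : ¬ s ∣ m),
      heckeHom hs hsn E ψ = f (φ (MvPolynomial.X ⟨s, hs, hsm⟩)) • ψ) →
    heckeHom hp hpn E ψ = b • ψ → f z ^ 2 - b * f z + p = 0

section Main

variable {D : Type} [CommGroup D] [Fintype D] (W : TWD D) {m : ℕ} (hM : W.M ∣ m)
  {O : Type} [CommRing O] [IsDomain O] [CharZero O] (𝔪 : Ideal (TPoly m O)) [𝔪.IsPrime]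
  (E : Type) [Field E] [Algebra O E] [CharZero E] [IsAlgClosed E]
  (hOE : Function.Injective (algebraMap O E))
  {T : Type} [CommRing T] [Algebra O T] (φ : TPoly m O →ₐ[O] T) (hφ : Function.Surjective φ)
  (hker : ∀ P, φ P = 0 → ∀ x : Loc 𝔪 ((XF hM).H (funRep (M := W.M) O O W.YQ)), P • x = 0)

theorem hnm_self : ∀ q : ℕ, q.Prime → q ∣ W.N * W.dd * W.dd → q ∣ W.M := by
  intro q hq h
  rcases (Nat.Prime.dvd_mul hq).mp h with h | h
  · exact h
  · exact h.trans (Dvd.intro_left W.N rfl)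

theorem n_ne_zero : W.N * W.dd * W.dd ≠ 0 :=
  mul_ne_zero (mul_ne_zero W.tws.pos W.dd_ne_zero) W.dd_ne_zero

include hOE hφ hker in
/-- **The operator `T_p` on the Taylor-Wiles module of level prime to `p`.** -/
theorem tpz_mul (hne : NonEis W.M 𝔪) {p : ℕ} (hp : p.Prime) (hpM : p.Coprime W.M)
    (Tp : (XF hM).H (funRep (M := W.M) O O W.YQ) →ₗ[TPoly m O]
      (XF hM).H (funRep (M := W.M) O O W.YQ))
    (hTp : ∀ x, Tp x = (Lvl.full.corrT W.M hp hpM (Lvl.ok_full p)).map _ x)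
    (Z : TPoly m O) (hU2 : HU2 p m (W.N * W.dd * W.dd) E φ (φ Z))
    (x : Loc 𝔪 ((XF hM).H (funRep (M := W.M) O O W.YQ))) :
    Z • Loc.map 𝔪 Tp x = Z • Z • x + p • x := by
  have : NeZero (W.N * W.dd * W.dd) := ⟨n_ne_zero W⟩
  have hES : ES (W.N * W.dd * W.dd) := Tate.es _
  have hM₀ : W.M ∣ W.M := dvd_refl _
  have hnm := hnm_self W
  obtain ⟨l₁, hl₁, hl₁𝔪⟩ := hne
  have hpdvd : ¬ p ∣ W.M := (Nat.Prime.coprime_iff_not_dvd hp).mp hpM
  let P₀ : Pr W.M := ⟨p, hp, hpdvd⟩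
  let l₀ : Pr W.M := TWDeg.Pr.incl hM l₁
  have hl₀ : ((l₀ : ℕ) : ZMod W.M) = 1 := hl₁
  let S : Submonoid (TPoly W.M O) := 𝔪.primeCompl.map (incl hM O)
  have hl₀S : eis O l₀ ∈ S := ⟨eis O l₁, hl₁𝔪, incl_eis hM l₁⟩
  have hrel : RelE hM₀ (n := W.N * W.dd * W.dd) hnm O E W.YQ :=
    ⟨W.Q.card + 1, fun l hl p hp x => rel_YQ_E W hM₀ hnm hES l hl p hp x⟩
  have hpn : ¬ p ∣ W.N * W.dd * W.dd := fun h => hpdvd (hnm p hp h)
  let Z₀ : TPoly W.M O := incl hM O Z
  let b : TPoly W.M O := MvPolynomial.X P₀ * Z₀ - Z₀ * Z₀ - MvPolynomial.C (p : O)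
  -- the operator `b` kills everything up to `S`
  have key := kill_of_points (Y := W.YQ) hrel hOE S l₀ hl₀ hl₀S b (by
    intro v χ hv hS hint htor
    have hχeis : χ (eis O l₀) ≠ 0 := hS _ hl₀S
    obtain ⟨f, hf⟩ := exists_algLift φ hφ (χ.comp (incl hM O)) (fun P hP => by
      refine htor _ fun h => ?_
      obtain ⟨y, rfl⟩ := (chE hM hM₀ (funRep (M := W.M) O O W.YQ)).surjective h
      have h1 := hker P hP (Loc.mk 𝔪 _ y)
      rw [← map_smul, Loc.mk_eq_zero] at h1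
      obtain ⟨s, hs, h1⟩ := h1
      refine ⟨incl hM O s, ⟨s, hs, rfl⟩, ?_⟩
      change incl hM O s • incl hM O P • chE hM hM₀ (funRep (M := W.M) O O W.YQ) y = 0
      rw [← chE_smul hM hM₀ hM, ← chE_smul hM hM₀ hM, h1, map_zero])
    have hf' : ∀ P, f (φ P) = χ (incl hM O P) := hf
    obtain ⟨v', hv'⟩ := exists_torE W hM₀ l₀ hl₀ hχeis v hv
    have hmem := (mem_eigSp_iff W.shap_tor hM₀ χ hl₀ hχeis hnm v').mpr hv'.eig
    rw [mem_eigSp] at hmem
    have hne' : W.shap_tor.equiv hM₀ O E v' ≠ 0 := fun h =>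
      hv'.ne ((LinearEquiv.map_eq_zero_iff _).mp h)
    have h1 := hU2 f hp hpn (avec χ p) _ hmem.1 hne' (fun s hs hsn hsm => by
      have hsM : ¬ s ∣ W.M := fun h => hsm (h.trans hM)
      rw [hmem.2 s hs hsn hsM, hf', incl_X]
      exact congrArg (fun c => c • _) (avec_coe χ ⟨s, hs, hsM⟩)) (hmem.2 p hp hpn hpdvd)
    have h2 : avec χ p = χ (MvPolynomial.X P₀) := avec_coe χ P₀
    rw [hf', h2] at h1
    change χ (MvPolynomial.X P₀ * Z₀ - Z₀ * Z₀ - MvPolynomial.C (p : O)) = 0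
    have h3 : χ (MvPolynomial.C (p : O)) = (p : E) := by
      have h4 : χ (MvPolynomial.C (p : O)) = algebraMap O E (p : O) := χ.commutes (p : O)
      rw [h4, map_natCast]
    rw [map_sub, map_sub, map_mul, map_mul, h3]
    change χ (MvPolynomial.X P₀) * χ Z₀ - χ Z₀ * χ Z₀ - p = 0
    linear_combination -h1)
  obtain ⟨s, hs, y, hy⟩ := Loc.exists_smul x
  obtain ⟨_, ⟨s', hs', rfl⟩, h1⟩ := key (chE hM hM₀ _ y)
  have h2 : b • chE hM hM₀ (funRep (M := W.M) O O W.YQ) y =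
      chE hM hM₀ (funRep (M := W.M) O O W.YQ) (Z • Tp y - Z • Z • y - p • y) := by
    rw [map_sub, map_sub, chE_smul hM hM₀ hM, chE_smul hM hM₀ hM, chE_smul hM hM₀ hM, hTp,
      map_nsmul, chE_T hM hM₀ _ P₀ hpM, sub_smul, sub_smul, mul_comm (MvPolynomial.X P₀), mul_smul,
      mul_smul, Stg.C_smul, Nat.cast_smul_eq_nsmul]
  rw [h2] at h1
  change incl hM O s' • chE hM hM₀ (funRep (M := W.M) O O W.YQ) _ = 0 at h1
  rw [← chE_smul hM hM₀ hM, EmbeddingLike.map_eq_zero_iff] at h1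
  have h3 : Z • Tp y - Z • Z • y - p • y ∈ {y : (XF hM).H (funRep (M := W.M) O O W.YQ) |
    Loc.mk 𝔪 _ y = 0} := Loc.mk_eq_zero.mpr ⟨s', hs', h1⟩
  have h4 : Loc.mk 𝔪 _ (Z • Tp y - Z • Z • y - p • y) = 0 := h3
  rw [map_sub, map_sub, map_smul, map_smul, map_smul, map_nsmul, ← Loc.map_mk, ← hy] at h4
  rw [← sub_eq_zero]
  apply Loc.eq_zero_of_smul hs
  have h5 : s • (Z • Loc.map 𝔪 Tp x - (Z • Z • x + p • x)) =
      Z • Loc.map 𝔪 Tp (s • x) - Z • Z • s • x - p • s • x := by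
    rw [map_smul, smul_sub, smul_add, smul_comm s Z, smul_comm s Z, smul_comm s Z, smul_comm s p]
    abel
  rw [h5, h4]

include hOE hφ hker in
/-- **`T_p = z + p/z`** on the Taylor-Wiles module of level prime to `p`. -/
theorem tpz (hne : NonEis W.M 𝔪) {p : ℕ} (hp : p.Prime) (hpM : p.Coprime W.M)
    (Tp : (XF hM).H (funRep (M := W.M) O O W.YQ) →ₗ[TPoly m O]
      (XF hM).H (funRep (M := W.M) O O W.YQ))
    (hTp : ∀ x, Tp x = (Lvl.full.corrT W.M hp hpM (Lvl.ok_full p)).map _ x)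
    (Z Z' : TPoly m O) (hZ : φ Z * φ Z' = 1) (hU2 : HU2 p m (W.N * W.dd * W.dd) E φ (φ Z))
    (x : Loc 𝔪 ((XF hM).H (funRep (M := W.M) O O W.YQ))) :
    Loc.map 𝔪 Tp x = Z • x + p • Z' • x := by
  have h1 : ∀ y : Loc 𝔪 ((XF hM).H (funRep (M := W.M) O O W.YQ)), Z' • Z • y = y := by
    intro y
    have h2 := hker (Z' * Z - 1) (by rw [map_sub, map_mul, map_one, mul_comm, hZ, sub_self]) y
    rwa [sub_smul, one_smul, mul_smul, sub_eq_zero] at h2
  have h2 := congrArg (fun y => Z' • y)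
    (tpz_mul W hM 𝔪 E hOE φ hφ hker hne hp hpM Tp hTp Z hU2 x)
  change Z' • Z • Loc.map 𝔪 Tp x = Z' • (Z • Z • x + p • x) at h2
  rw [h1, smul_add, h1, smul_comm Z' p] at h2
  exact h2

end Main

end Fermat.Agent.PInX

end
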